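import Fermat.Agent.ModularityGlue.SemistableModular

/-!
# Transporting modularity along a congruence

The statement of the switch at `3` to a curve irreducible at `5`, and the lifting of exact-conductor
modularity from a curve congruent modulo `3` or `5`.
-/

set_option autoImplicit false

noncomputable section

open WeierstrassCurve

namespace Fermat.Agent.ModularityGlue

/-- `3` is a prime of multiplicative or of good ordinary-or-`a₃ = ±3` reduction. -/
def NonzeroTraceAtThree (W : WeierstrassCurve ℤ) : Prop :=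
  (3 : ℤ) ∣ W.Δ ∨ W.apOfModel 3 ≠ 0

/-- The switch at `3` to a curve irreducible at `5` with nonzero trace at `3`. -/
def SwitchThreeToFive : Prop :=
  ∀ W : WeierstrassCurve ℤ, W.Δ ≠ 0 → W.IsSemistableModel → W.ModRepIsIrreducible 3 →
    ∃ W' : WeierstrassCurve ℤ, W'.Δ ≠ 0 ∧ W'.IsSemistableModel ∧ W'.ModRepIsIrreducible 5 ∧
      NonzeroTraceAtThree W' ∧
      ∀ ℓ : ℕ, ℓ.Prime → W.IsGoodPrimeFor ℓ → W'.IsGoodPrimeFor ℓ → ℓ ≠ 3 →
        (3 : ℤ) ∣ (W'.apOfModel ℓ - W.apOfModel ℓ)

/-- An exact-conductor level has no square divisor. -/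
theorem not_sq_dvd_of_squarefree {N q : ℕ} (h : Squarefree N) (hq : q.Prime) : ¬ q ^ 2 ∣ N :=
  fun hdvd => hq.not_isUnit (h q (by simpa [pow_two] using hdvd))

/-- Lifting from an exact-conductor modular curve congruent modulo `p ∈ {3, 5}`. -/
theorem exactConductorLevel_of_congruent (h59 : LiftingAtThreeFive) {p : ℕ} (hp : p = 3 ∨ p = 5)
    {W W' : WeierstrassCurve ℤ} (hΔ : W.Δ ≠ 0) (hW : W.IsSemistableModel)
    (hirr : W.ModRepIsIrreducible p) (h' : Mlc1IsModularModelOfExactConductorLevel W')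
    (hcong : ∀ ℓ : ℕ, ℓ.Prime → W.IsGoodPrimeFor ℓ → W'.IsGoodPrimeFor ℓ → ℓ ≠ p →
      (p : ℤ) ∣ (W'.apOfModel ℓ - W.apOfModel ℓ)) :
    Mlc1IsModularModelOfExactConductorLevel W := by
  have hpp : p.Prime := by rcases hp with rfl | rfl <;> decide
  obtain ⟨N, hN, hsq, hiff, hmod⟩ := h'
  have : NeZero N := ⟨hN.ne'⟩
  exact h59 p hp W hΔ hW hirr N
    (isResiduallyModularOfLevel_of_congruent hpp (fun q hq h => (hiff q hq).mpr h) hmod hcong)
    (not_sq_dvd_of_squarefree hsq hpp)
    (fun q hq _ hdvd => not_sq_dvd_of_squarefree hsq hq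
      ((pow_dvd_pow q (by norm_num : 2 ≤ 3)).trans hdvd))

end Fermat.Agent.ModularityGlue

end
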