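import Fermat.Prelude.Def_WeierstrassCurve_Mlc1RowStatement
import Fermat.Prelude.Def_FLTPrelim_Ramification

/-!
# Statements and elementary lemmas of the modularity argument

The statements of modularity lifting at `3` and `5` and of residual modularity at `3`, and the
passage from modularity at exact conductor level to residual modularity of congruent curves and
to modularity of the generic fibre.
-/

set_option autoImplicit false

noncomputable section

open WeierstrassCurve WeierstrassCurve.Affine WeierstrassCurve.Affine.Point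
open scoped WeierstrassCurve.Affine

namespace Fermat.Agent.ModularityGlue

/-- Modularity lifting at `p ∈ {3, 5}`: a semistable curve with irreducible mod `p`
representation, residually modular of a level without `p ^ 2` and without cubes away from `p`,
is modular at exact conductor level. -/
def LiftingAtThreeFive : Prop :=
  ∀ (p : ℕ), (p = 3 ∨ p = 5) → ∀ (W : WeierstrassCurve ℤ), W.Δ ≠ 0 → W.IsSemistableModel →
    W.ModRepIsIrreducible p → ∀ (M₀ : ℕ) [NeZero M₀], W.IsResiduallyModularOfLevel p M₀ →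
    ¬ p ^ 2 ∣ M₀ → (∀ q : ℕ, q.Prime → q ≠ p → ¬ q ^ 3 ∣ M₀) →
    Mlc1IsModularModelOfExactConductorLevel W

/-- Residual modularity at `3`: an irreducible mod `3` representation of a semistable curve
is modular of a level without cubes away from `3`, with no inertia-fixed point if `9` divides
the level. -/
def ResidualModularityAtThree : Prop :=
  ∀ (W : WeierstrassCurve ℤ), W.Δ ≠ 0 → W.IsSemistableModel → W.ModRepIsIrreducible 3 →
    ∃ M : ℕ, 0 < M ∧ W.IsResiduallyModularOfLevel 3 M ∧
      (∀ q : ℕ, q.Prime → q ≠ 3 → ¬ q ^ 3 ∣ M) ∧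
      (3 ^ 2 ∣ M →
        ∀ A : ValuationSubring (AlgebraicClosure ℚ), A.LiesOverPrime 3 →
          ∀ x : Submodule.torsionBy ℤ
              ((W.map (Int.castRingHom ℚ))⁄(AlgebraicClosure ℚ)).Point (3 : ℕ),
            (∀ σ ∈ A.inertiaSubgroupIn ℚ, σ • x = x) → x = 0)

/-- Exact-conductor modularity transfers to residual modularity of any curve congruent mod `p`. -/
theorem isResiduallyModularOfLevel_of_congruent {p : ℕ} (hp : p.Prime)
    {W W' : WeierstrassCurve ℤ} {N : ℕ} (hbad : ∀ q : ℕ, q.Prime → (q : ℤ) ∣ W'.Δ → q ∣ N)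
    (hmod : W'.IsModularModelOfLevel N)
    (hcong : ∀ ℓ : ℕ, ℓ.Prime → W.IsGoodPrimeFor ℓ → W'.IsGoodPrimeFor ℓ → ℓ ≠ p →
      (p : ℤ) ∣ (W'.apOfModel ℓ - W.apOfModel ℓ)) :
    W.IsResiduallyModularOfLevel p N := by
  obtain ⟨f, hf, hfa⟩ := hmod
  obtain ⟨𝔪, h𝔪, hp𝔪⟩ := FLTPrelim.exists_maximalIdeal_natCast_prime_mem hp
  refine ⟨f, 𝔪, hf, h𝔪, hp𝔪, fun ℓ hℓ hgood hℓN hℓp => ?_⟩
  have hgood' : W'.IsGoodPrimeFor ℓ := fun h => hℓN (hbad ℓ hℓ h)
  refine ⟨(W'.apOfModel ℓ : integralClosure ℤ ℂ), ?_, ?_⟩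
  · rw [hfa ℓ hℓ hgood' hℓN]
    simp
  · obtain ⟨k, hk⟩ := hcong ℓ hℓ hgood hgood' hℓp
    have hk' : (W'.apOfModel ℓ : integralClosure ℤ ℂ) - (W.apOfModel ℓ : integralClosure ℤ ℂ)
        = (p : integralClosure ℤ ℂ) * (k : integralClosure ℤ ℂ) := by
      rw [← Int.cast_sub, hk]
      push_cast
      rfl
    rw [hk']
    exact Ideal.mul_mem_right _ _ hp𝔪

/-- An exact-conductor modular model gives modularity of its generic fibre. -/
theorem isModular_of_exactConductorLevel {W : WeierstrassCurve ℤ}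
    (h : Mlc1IsModularModelOfExactConductorLevel W) :
    (W.map (Int.castRingHom ℚ)).IsModular := by
  obtain ⟨N, hN, -, -, hmod⟩ := h
  exact ⟨W, ⟨1, one_smul _ _⟩, N, hN, hmod⟩

end Fermat.Agent.ModularityGlue

end
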